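import Fermat.Agent.S33.H849.LevelReady
import Fermat.Agent.Ribet.H862.StdModel
import Fermat.Agent.Ribet.H883.DKCore
import Fermat.Agent.Ribet.H224.AlgPFinal
import Fermat.Agent.A2.T1.H669.T1

/-!
# Row 38 / S33, WALL-p, (S2)-chain: the leaf LEVEL at READY levels (helper372)

`levelReady372 : S33.H849.LevelReadyStatement` (hence `level372 : Ribet.H220.LevelStatement`),
UNCONDITIONAL, assembled from main:

* the standard semistable model `Ribet.H862.stdModel_mul` and the cut data of ANY `V∞`, `W`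
  on it (`Ribet.H862.cutBy_of_std_mul`);
* ALG-p `Ribet.H224.algP_unconditional` applied to `τ := arithmeticRingAut (res τ)`;
* the abstract core `Ribet.H883.DK.dkCore_sq` (merge + `V_i ⊆ B_{p_i}` + depth `p² ∈ λ^p w R`).
-/

set_option autoImplicit false
set_option linter.style.haveILetI false
set_option linter.unusedVariables false
set_option synthInstance.maxHeartbeats 400000
set_option maxHeartbeats 1600000

noncomputable section

namespace Fermat.Agent.Ribet.H372

open ModularCurve AlgebraicCurve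
open Fermat.Agent.A2
open Fermat.Agent.S35.G (CutBy)

/-- A root of unity of a field lies in every valuation subring. -/
theorem mem_of_pow_eq_one_lvl372 {K : Type*} [Field K] (A : ValuationSubring K) {x : K} {n : ℕ}
    (hn : n ≠ 0) (hx : x ^ n = 1) : x ∈ A := by
  rcases A.mem_or_inv_mem x with h | h
  · exact h
  · have hx0 : x ≠ 0 := by
      rintro rfl
      rw [zero_pow hn] at hx
      exact zero_ne_one hx
    have e : x = x⁻¹ ^ (n - 1) := by
      have h1 : x ^ n = x ^ (n - 1) * x := by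
        rw [← pow_succ, Nat.sub_add_cancel (Nat.one_le_iff_ne_zero.2 hn)]
      have h2 : x ^ (n - 1) * x = 1 := by rw [← h1, hx]
      have h3 : x ^ (n - 1) ≠ 0 := pow_ne_zero _ hx0
      rw [inv_pow]
      field_simp
      rw [mul_comm]
      exact h2.symm ▸ rfl
    rw [e]
    exact pow_mem h _

/-- Normalising the order of the two components of a chart. -/
theorem exists_chart_cutBy_lvl372 {R F : Type*} [CommRing R] [Field F] [Algebra R F] {w : R}
    {B : Subalgebra R F} (V₁ V₂ : ValuationSubring F) (c : A2.SSChart w B)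
    (h : CutBy w B c V₁ V₂ ∨ CutBy w B c V₂ V₁) :
    ∃ c' : A2.SSChart w B, CutBy w B c' V₁ V₂ := by
  rcases h with h | h
  · exact ⟨c, h⟩
  · exact ⟨Fermat.Agent.Ribet.H862.swapChart c, ⟨h.le₂, h.le₁, h.cut₂, h.cut₁⟩⟩

/-- **LEVEL at READY levels** (`S33.H849.LevelReadyStatement`), unconditional. -/
theorem levelReady372 : Fermat.Agent.S33.H849.LevelReadyStatement := by
  intro P E M p N _ _ _ hN hp hp2 h3 hpM hP hE ζ hζ V W hV hW τ hτ c hc y hy hdiv hI hZ
  subst hN
  -- the standard model and its cut data for the GIVEN `V`, `W`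
  obtain ⟨D, V', W', hDx, -, -, -⟩ :=
    Fermat.Agent.Ribet.H862.stdModel_mul P E M p hp hpM h3 (fun h => absurd h hp2) hP hE
  haveI : IsDiscreteValuationRing ↥(RE P E) := hE.dvr
  haveI : HenselianLocalRing ↥(RE P E) := hE.henselian
  haveI : IsAlgClosed (IsLocalRing.ResidueField ↥(RE P E)) := hE.algClosed
  obtain ⟨w, hw⟩ := IsDiscreteValuationRing.exists_irreducible ↥(RE P E)
  obtain ⟨hcutf, hcuti⟩ :=
    Fermat.Agent.Ribet.H862.cutBy_of_std_mul P E M p hp hpM h3 (fun h => absurd h hp2) hP hE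
      D hDx V W hV hW w hw
  obtain ⟨cf₀⟩ := D.cf w hw
  obtain ⟨ci₀⟩ := D.ci w hw
  obtain ⟨cf, hcf⟩ := exists_chart_cutBy_lvl372 V
    (V.comap (W : FE E (M * p) →+* FE E (M * p))) cf₀ (hcutf cf₀)
  obtain ⟨ci, hci⟩ := exists_chart_cutBy_lvl372 V
    (V.comap (W : FE E (M * p) →+* FE E (M * p))) ci₀ (hcuti ci₀)
  -- the root of unity in `R_E`
  have hζP : ((ζ : E) : Qb) ∈ P := by
    refine mem_of_pow_eq_one_lvl372 P hp.ne_zero ?_
    have h1 : ζ ^ p = 1 := hζ.pow_eq_one
    have := congrArg (fun z : E => (z : Qb)) h1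
    simpa using this
  let ζR : ↥(RE P E) := ⟨ζ, hζP⟩
  have hζR : IsPrimitiveRoot ζR p := by
    refine IsPrimitiveRoot.of_map_of_injective (f := algebraMap ↥(RE P E) E) ?_
      (FaithfulSMul.algebraMap_injective ↥(RE P E) E)
    exact hζ
  have hτζ : Fermat.Agent.A2.T1.H669.resR hE τ hτ ζR = ζR ^ c := Subtype.ext hc
  -- ALG-p
  have hAlg : Fermat.Agent.Ribet.H495.AlgP.AlgPConclusion E D.Bf D.Bi cf ci p (ζR - 1) c
      (arithmeticRingAut (modularFunctionFieldFull (M * p)) (hE.res τ hτ)) :=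
    Fermat.Agent.Ribet.H224.algP_unconditional (R := ↥(RE P E)) (E := E)
      (F := ↥(FE E (M * p))) w hw p hp hp2
      (Fermat.Agent.A2.T1.H669.natCast_mem_maximalIdeal_RE E hP) ζR hζR
      D.x D.hx D.hfin D.hconst D.Bf D.Bi D.hBf D.hBi cf ci
      (arithmeticRingAut (modularFunctionFieldFull (M * p)) (hE.res τ hτ))
      (hE.res τ hτ).toRingEquiv (Fermat.Agent.A2.T1.H669.resR hE τ hτ)
      (fun e => arithmeticRingAut_algebraMap (modularFunctionFieldFull (M * p)) (hE.res τ hτ) e)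
      (fun r => rfl)
      (D.hτf hE τ hτ w hw) (D.hτi hE τ hτ w hw) c hτζ
  -- the core
  have hcast : algebraMap E (FE E (M * p)) ((p : E) ^ 2) = ((p : FE E (M * p))) ^ 2 := by
    rw [map_pow, map_natCast]
  have conv : ∀ V₀ : ValuationSubring (FE E (M * p)),
      Fermat.Agent.Ribet.H220.Deep V₀ p (algebraMap E (FE E (M * p)) ((p : E) ^ 2)) y →
      ∃ g z : FE E (M * p), g ≠ 0 ∧ z ∈ V₀ ∧ y = g ^ p * (1 + (p : FE E (M * p)) ^ 2 * z) := by
    rintro V₀ ⟨g, u, hg, hyu, z, hz, hu⟩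
    refine ⟨g, z, hg, hz, ?_⟩
    rw [hyu, hu, hcast]
  exact Fermat.Agent.Ribet.H883.DK.dkCore_sq (E := E) w hw p hp hp2
    (Fermat.Agent.A2.T1.H669.natCast_mem_maximalIdeal_RE E hP) ζR hζR D.x D.Bf D.Bi
    ⟨hw, D.hx, D.hfin, D.hconst, D.hBf⟩
    (Fermat.Agent.A2.Alg.H34.chartCtx_inv w hw D.x D.hx D.hfin D.hconst D.Bi D.hBi)
    cf ci V (V.comap (W : FE E (M * p) →+* FE E (M * p)))
    hcf.le₁ hcf.le₂ hcf.cut₁ hcf.cut₂ hci.le₁ hci.le₂ hci.cut₁ hci.cut₂
    c (arithmeticRingAut (modularFunctionFieldFull (M * p)) (hE.res τ hτ)) hAlg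
    y hy hdiv (conv _ hI) (conv _ hZ)

/-- **LEVEL** (`Ribet.H220.LevelStatement`, `p ≥ 5`), unconditional. -/
theorem level372 : Fermat.Agent.Ribet.H220.LevelStatement :=
  Fermat.Agent.S33.H849.level_of_ready levelReady372

end Fermat.Agent.Ribet.H372

end
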